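import Fermat.Agent.LT.A2.H416.MeanSpec

/-!
# Row LT, tower A2, sub-leaf A2.03.7.4 `IwasawaGL2C` (helper830), OFF-MAIN

`iwasawaGL2C830 : H416.IwasawaGL2C`
(frozen Prop of `Fermat/Agent/LT/A2/H416/MeanSpec.lean`, helper416@957b73407, sha256 `4437dde0…`).

Proof (direct, no reduction to determinant one).  For `M = [[a, b], [c, e]] ∈ GL₂(ℂ)` put
`N = |c|² + |e|²`, `x = (b ē + a c̄) / N`, `y = |det M| / N`, `ρ = √N`, `B = [[y, x], [0, 1]] · ρ`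
and `u = B⁻¹ M`.  Then `jpt M = (x, y)` by definition and `M Mᴴ = B Bᴴ` is the Lagrange identity
`(|a|² + |b|²)(|c|² + |e|²) = |a c̄ + b ē|² + |a e - b c|²`, so `u` is unitary.
-/

set_option autoImplicit false

open ComplexConjugate

noncomputable section

namespace Fermat.Agent.LT.A2.H830

open Fermat.Agent.LT.H556 Fermat.Agent.LT.A2 Fermat.Agent.LT.H470 Fermat.Agent.LT.A2.H416

/-- Entrywise form of the Lagrange identity for a general determinant. -/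
theorem lagrange830 (A B C D x σ y R : ℂ) (xb Ab Bb Cb Db : ℂ)
    (hR : R = C * Cb + D * Db) (hR0 : R ≠ 0) (hσ : σ * σ = R)
    (hy : y * y * (R * R) = (A * D - B * C) * (Ab * Db - Bb * Cb))
    (hx : x = (A * Cb + B * Db) / R) (hxb : xb = (Ab * C + Bb * D) / R) :
    A * Ab + B * Bb = σ * y * (σ * y) + σ * x * (σ * xb) ∧
    A * Cb + B * Db = σ * x * σ ∧
    C * Ab + D * Bb = σ * (σ * xb) ∧
    C * Cb + D * Db = σ * σ := by
  have hRx : R * x = A * Cb + B * Db := by rw [hx, mul_div_cancel₀ _ hR0]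
  have hRxb : R * xb = Ab * C + Bb * D := by rw [hxb, mul_div_cancel₀ _ hR0]
  refine ⟨?_, ?_, ?_, ?_⟩
  · have h1 : σ * y * (σ * y) + σ * x * (σ * xb) = (σ * σ) * (y * y + x * xb) := by ring
    rw [h1, hσ]
    have h2 : R * (R * (y * y + x * xb)) = R * (A * Ab + B * Bb) := by
      have h3 : R * (R * (y * y + x * xb)) = y * y * (R * R) + (R * x) * (R * xb) := by ring
      rw [h3, hy, hRx, hRxb, hR]
      ring
    exact (mul_left_cancel₀ hR0 h2).symm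
  · have h1 : σ * x * σ = (σ * σ) * x := by ring
    rw [h1, hσ, hRx]
  · have h1 : σ * (σ * xb) = (σ * σ) * xb := by ring
    rw [h1, hσ, hRxb]
    ring
  · rw [hσ, hR]

/-- The matrix of `[[y, x], [0, 1]] · ρ`. -/
theorem coe_upper_mul_scalar830 (x : ℂ) (y ρ : ℝ) (hy : y ≠ 0) (hρ : ρ ≠ 0) :
    ((T0.upperU x y hy * T0.scalarU ρ hρ : GL (Fin 2) ℂ) : Matrix (Fin 2) (Fin 2) ℂ)
      = !![(ρ : ℂ) * (y : ℂ), (ρ : ℂ) * x; 0, (ρ : ℂ)] := by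
  rw [Matrix.GeneralLinearGroup.coe_mul, T0.coe_upperU, T0.coe_scalarU]
  ext i j
  fin_cases i <;> fin_cases j <;>
    simp [Matrix.mul_apply, Matrix.diagonal_apply, mul_comm]

/-- `M Mᴴ = B Bᴴ`. -/
theorem mul_conjTranspose_eq830 (M : Matrix (Fin 2) (Fin 2) ℂ) (hdet : M.det ≠ 0) :
    M * M.conjTranspose
      = !![((Real.sqrt (jN (M 1 0) (M 1 1)) : ℝ) : ℂ)
            * ((‖M 0 0 * M 1 1 - M 0 1 * M 1 0‖ / jN (M 1 0) (M 1 1) : ℝ) : ℂ),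
          ((Real.sqrt (jN (M 1 0) (M 1 1)) : ℝ) : ℂ)
            * ((M 0 1 * conj (M 1 1) + M 0 0 * conj (M 1 0)) / (jN (M 1 0) (M 1 1) : ℂ));
          0, ((Real.sqrt (jN (M 1 0) (M 1 1)) : ℝ) : ℂ)]
        * (!![((Real.sqrt (jN (M 1 0) (M 1 1)) : ℝ) : ℂ)
            * ((‖M 0 0 * M 1 1 - M 0 1 * M 1 0‖ / jN (M 1 0) (M 1 1) : ℝ) : ℂ),
          ((Real.sqrt (jN (M 1 0) (M 1 1)) : ℝ) : ℂ)
            * ((M 0 1 * conj (M 1 1) + M 0 0 * conj (M 1 0)) / (jN (M 1 0) (M 1 1) : ℂ));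
          0, ((Real.sqrt (jN (M 1 0) (M 1 1)) : ℝ) : ℂ)]).conjTranspose := by
  have hN : 0 < jN (M 1 0) (M 1 1) := jN_pos470 (row_ne_of_det_ne470 hdet)
  set N : ℝ := jN (M 1 0) (M 1 1) with hNdef
  set d : ℝ := ‖M 0 0 * M 1 1 - M 0 1 * M 1 0‖ with hd
  have hNc : ((N : ℝ) : ℂ) ≠ 0 := Complex.ofReal_ne_zero.2 hN.ne'
  have hsq : ((Real.sqrt N : ℝ) : ℂ) * ((Real.sqrt N : ℝ) : ℂ) = (N : ℂ) := by
    rw [← Complex.ofReal_mul, Real.mul_self_sqrt hN.le]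
  have hRdef : ((N : ℝ) : ℂ) = M 1 0 * conj (M 1 0) + M 1 1 * conj (M 1 1) := by
    rw [hNdef]
    unfold jN
    rw [Complex.mul_conj, Complex.mul_conj]
    push_cast
    ring
  have hsr : conj ((Real.sqrt N : ℝ) : ℂ) = ((Real.sqrt N : ℝ) : ℂ) := Complex.conj_ofReal _
  have hsy : conj (((d / N : ℝ)) : ℂ) = ((d / N : ℝ) : ℂ) := Complex.conj_ofReal _
  have hsN : conj ((N : ℝ) : ℂ) = ((N : ℝ) : ℂ) := Complex.conj_ofReal _
  have hy : ((d / N : ℝ) : ℂ) * ((d / N : ℝ) : ℂ) * ((N : ℂ) * (N : ℂ))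
      = (M 0 0 * M 1 1 - M 0 1 * M 1 0)
        * (conj (M 0 0) * conj (M 1 1) - conj (M 0 1) * conj (M 1 0)) := by
    have h1 : ((d / N : ℝ) : ℂ) * ((d / N : ℝ) : ℂ) * ((N : ℂ) * (N : ℂ)) = ((d * d : ℝ) : ℂ) := by
      push_cast
      field_simp
    have h2 : d * d = Complex.normSq (M 0 0 * M 1 1 - M 0 1 * M 1 0) := by
      rw [hd, Complex.normSq_eq_norm_sq]
      ring
    rw [h1, h2, ← Complex.mul_conj]
    simp only [map_sub, map_mul]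
  set x : ℂ := (M 0 1 * conj (M 1 1) + M 0 0 * conj (M 1 0)) / (N : ℂ) with hx
  have hx' : x = (M 0 0 * conj (M 1 0) + M 0 1 * conj (M 1 1)) / (N : ℂ) := by
    rw [hx, add_comm]
  have hxb : conj x = (conj (M 0 0) * M 1 0 + conj (M 0 1) * M 1 1) / (N : ℂ) := by
    rw [hx', map_div₀, hsN, map_add, map_mul, map_mul, Complex.conj_conj, Complex.conj_conj]
  obtain ⟨e00, e01, e10, e11⟩ := lagrange830 (M 0 0) (M 0 1) (M 1 0) (M 1 1) x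
    ((Real.sqrt N : ℝ) : ℂ) ((d / N : ℝ) : ℂ) ((N : ℝ) : ℂ) (conj x)
    (conj (M 0 0)) (conj (M 0 1)) (conj (M 1 0)) (conj (M 1 1)) hRdef hNc hsq hy hx' hxb
  ext i j
  fin_cases i <;> fin_cases j
  · simpa [Matrix.mul_apply, Fin.sum_univ_two, Matrix.conjTranspose_apply, hsr, hsy] using e00
  · simpa [Matrix.mul_apply, Fin.sum_univ_two, Matrix.conjTranspose_apply, hsr, hsy] using e01
  · simpa [Matrix.mul_apply, Fin.sum_univ_two, Matrix.conjTranspose_apply, hsr, hsy] using e10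
  · simpa [Matrix.mul_apply, Fin.sum_univ_two, Matrix.conjTranspose_apply, hsr, hsy] using e11

/-- **A2.03.7.4.**  The Iwasawa decomposition of `GL₂(ℂ)` with the point `M • j`. -/
theorem iwasawaGL2C830 : IwasawaGL2C := by
  intro M
  have hdet : (M : Matrix (Fin 2) (Fin 2) ℂ).det ≠ 0 := by
    have h := M.isUnit
    have h2 := (Matrix.isUnit_iff_isUnit_det _).1 h
    exact h2.ne_zero
  have hdet' : (M : Matrix (Fin 2) (Fin 2) ℂ) 0 0 * (M : Matrix (Fin 2) (Fin 2) ℂ) 1 1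
      - (M : Matrix (Fin 2) (Fin 2) ℂ) 0 1 * (M : Matrix (Fin 2) (Fin 2) ℂ) 1 0 ≠ 0 := by
    rw [← Matrix.det_fin_two]
    exact hdet
  have hN : 0 < jN ((M : Matrix (Fin 2) (Fin 2) ℂ) 1 0) ((M : Matrix (Fin 2) (Fin 2) ℂ) 1 1) :=
    jN_pos470 (row_ne_of_det_ne470 hdet)
  set N : ℝ := jN ((M : Matrix (Fin 2) (Fin 2) ℂ) 1 0) ((M : Matrix (Fin 2) (Fin 2) ℂ) 1 1)
    with hNdef
  set d : ℝ := ‖(M : Matrix (Fin 2) (Fin 2) ℂ) 0 0 * (M : Matrix (Fin 2) (Fin 2) ℂ) 1 1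
      - (M : Matrix (Fin 2) (Fin 2) ℂ) 0 1 * (M : Matrix (Fin 2) (Fin 2) ℂ) 1 0‖ with hd
  have hdpos : 0 < d := norm_pos_iff.2 hdet'
  have hy : 0 < d / N := div_pos hdpos hN
  have hρ : 0 < Real.sqrt N := Real.sqrt_pos.2 hN
  set x : ℂ := ((M : Matrix (Fin 2) (Fin 2) ℂ) 0 1 * conj ((M : Matrix (Fin 2) (Fin 2) ℂ) 1 1)
      + (M : Matrix (Fin 2) (Fin 2) ℂ) 0 0 * conj ((M : Matrix (Fin 2) (Fin 2) ℂ) 1 0)) / (N : ℂ)
    with hx
  set Bu : GL (Fin 2) ℂ := T0.upperU x (d / N) hy.ne' * T0.scalarU (Real.sqrt N) hρ.ne' with hBu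
  refine ⟨x, d / N, Real.sqrt N, hy, hρ, Bu⁻¹ * M, ?_, ?_, ?_⟩
  · have hB : (Bu : Matrix (Fin 2) (Fin 2) ℂ)
        = !![((Real.sqrt N : ℝ) : ℂ) * ((d / N : ℝ) : ℂ), ((Real.sqrt N : ℝ) : ℂ) * x;
            0, ((Real.sqrt N : ℝ) : ℂ)] :=
      coe_upper_mul_scalar830 x (d / N) (Real.sqrt N) hy.ne' hρ.ne'
    have hu : ((Bu⁻¹ * M : GL (Fin 2) ℂ) : Matrix (Fin 2) (Fin 2) ℂ)
        = ((Bu⁻¹ : GL (Fin 2) ℂ) : Matrix (Fin 2) (Fin 2) ℂ)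
          * (M : Matrix (Fin 2) (Fin 2) ℂ) := rfl
    have hinv : ((Bu⁻¹ : GL (Fin 2) ℂ) : Matrix (Fin 2) (Fin 2) ℂ)
        * (Bu : Matrix (Fin 2) (Fin 2) ℂ) = 1 := by
      rw [← Matrix.GeneralLinearGroup.coe_mul, inv_mul_cancel]
      rfl
    have hMM : (M : Matrix (Fin 2) (Fin 2) ℂ) * (M : Matrix (Fin 2) (Fin 2) ℂ).conjTranspose
        = (Bu : Matrix (Fin 2) (Fin 2) ℂ) * (Bu : Matrix (Fin 2) (Fin 2) ℂ).conjTranspose := by
      rw [hB]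
      exact mul_conjTranspose_eq830 (M : Matrix (Fin 2) (Fin 2) ℂ) hdet
    rw [hu, Matrix.conjTranspose_mul, ← Matrix.mul_assoc,
      Matrix.mul_assoc ((Bu⁻¹ : GL (Fin 2) ℂ) : Matrix (Fin 2) (Fin 2) ℂ), hMM,
      ← Matrix.mul_assoc, hinv, Matrix.one_mul, ← Matrix.conjTranspose_mul, hinv,
      Matrix.conjTranspose_one]
  · rw [mul_inv_cancel_left]
  · rfl

end Fermat.Agent.LT.A2.H830

end
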